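/-
S27 / TOP (helper9): the adapters between the sub-architectures.  Prefix `s27t_`.

* `s27t_red`            : the constant reduction `s27r_Red K F k Fb` (interface of (RED)/(HENS))
                          attached to the valuation rings `(𝒪, 𝒱)` produced by (GOOD), with
                          `k = ResidueField 𝒪`, `Fb = ResidueField 𝒱`;
* `s27t_good`           : (GOOD)'s `s27g_Good 𝒪 𝒱 p` gives (RED)'s `s27r_Good (s27t_red _) x` for the
                          separating generator `x` of (GOOD), and the common Riemann genus;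
* `s27t_cast_ne_zero`   : `(ℓ : k) ≠ 0` for `ℓ ≠ p`.
-/
import Mathlib
import Fermat.Agent.S27.Good.Defs
import Fermat.Agent.S27.Red.Defs

set_option autoImplicit false

noncomputable section

namespace Fermat.Agent.S27

open AlgebraicCurve IsLocalRing IntermediateField Polynomial Fermat.Agent.JT3

universe u v
variable {K : Type u} {F : Type v} [Field K] [Field F] [Algebra K F]

/-- the constant reduction attached to a pair of valuation rings `𝒱 ∩ K = 𝒪`. -/
def s27t_red {𝒪 : ValuationSubring K} {𝒱 : ValuationSubring F} (lies : s27g_Over 𝒪 𝒱) :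
    @s27r_Red K F (ResidueField ↥𝒪) (ResidueField ↥𝒱) _ _ _ _ _ (s27g_resAlgebra lies) :=
  letI := s27g_resAlgebra lies
  { O := 𝒪
    V := 𝒱
    r0 := residue ↥𝒪
    r := residue ↥𝒱
    r0_surj := residue_surjective
    r_surj := residue_surjective
    mem_iff := lies
    comp := fun a ha => by
      haveI := s27g_incl_isLocalHom lies
      exact (ResidueField.map_residue (s27g_incl lies) ⟨a, ha⟩).symm }

@[simp] theorem s27t_red_V {𝒪 : ValuationSubring K} {𝒱 : ValuationSubring F}
    (lies : s27g_Over 𝒪 𝒱) :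
    letI := s27g_resAlgebra lies
    (s27t_red lies).V = 𝒱 := rfl

@[simp] theorem s27t_red_r {𝒪 : ValuationSubring K} {𝒱 : ValuationSubring F}
    (lies : s27g_Over 𝒪 𝒱) :
    letI := s27g_resAlgebra lies
    (s27t_red lies).r = residue ↥𝒱 := rfl

theorem s27t_isRGenus_iff (g : ℕ) : s27g_IsRGenus K F g ↔ s27r_IsGenus K F g := Iff.rfl

/-- (GOOD) ⟹ the hypotheses of (RED)/(HENS), for the separating generator of (GOOD), together
with the common Riemann genus of the two function fields. -/
theorem s27t_good {𝒪 : ValuationSubring K} {𝒱 : ValuationSubring F} {p : ℕ}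
    (hG : s27g_Good 𝒪 𝒱 p) :
    letI := s27g_resAlgebra hG.lies
    ∃ x : F, s27r_Good (s27t_red hG.lies) x ∧
      ∃ g : ℕ, s27r_IsGenus K F g ∧ s27r_IsGenus (ResidueField ↥𝒪) (ResidueField ↥𝒱) g := by
  letI := s27g_resAlgebra hG.lies
  obtain ⟨x, hxK, hxk, hdeg⟩ := hG.sepGen
  obtain ⟨g, hgK, hgk⟩ := hG.rgenus
  refine ⟨(x : F), ⟨x.2, hxK, hxk, hdeg.symm, ?_⟩, g, hgK, hgk⟩
  intro gK gk h1 h2
  rw [s27r_isGenus_unique h1 hgK, s27r_isGenus_unique h2 hgk]

/-- `(ℓ : k) ≠ 0` when `ℓ` is a prime different from the characteristic. -/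
theorem s27t_cast_ne_zero {k : Type*} [Field k] (p : ℕ) [CharP k p] {l : ℕ} (hl : l.Prime)
    (hlp : l ≠ p) : (l : k) ≠ 0 := by
  intro h0
  have h1 := (CharP.cast_eq_zero_iff k p l).1 h0
  rcases (Nat.dvd_prime hl).1 h1 with h2 | h2
  · exact CharP.char_ne_one k p h2
  · exact hlp h2.symm

end Fermat.Agent.S27
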