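/-
Project S27 (torsion of `Pic⁰` of a function field in characteristic zero), THE TOP (deputy helper25;
architect helper9).  Prefix `s27t_`.  Namespace `Fermat.Agent.S27`.

THE THREE SEAMS between the sub-architectures, as `Prop`-valued statements, and the wiring

  `s27t_main : s27t_Good_stmt → s27t_RedHens_stmt → s27t_Zeta_stmt → (frozen S27)`.

* `s27t_Good_stmt`    (GOOD, helper13): for `F / K` with a separating generator and a finite set `S`
  of primes: a place of good reduction `(𝒪, 𝒱)` of residue characteristic `p ∉ S`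
  (`s27g_Good 𝒪 𝒱 p`, `Good/Defs.lean`);
* `s27t_RedHens_stmt` (RED + HENS, helper12 + helper18): at a place of good reduction of residue
  characteristic `p ≠ ℓ`: `# Pic⁰(F)[ℓ ^ n] = # Pic⁰(F̄)[ℓ ^ n]` (`F̄ / k` the residue function field);
* `s27t_Zeta_stmt`    (Z + G + NORM, helper29 + helper27 + helper2): over `k` algebraically closed of
  characteristic `p`, algebraic over the prime field: `# Pic⁰(E)[ℓ ^ n] = ℓ ^ (2 g n)`, `g` the Riemann
  genus (`= s27z_main`).

Glue proved here: (FF-BASIC) `s27f_exists_sepGen`, (GEN) `s27gen_genusFF_eq'`, and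
`s27t_frob_of_integral`: an element of a field of characteristic `p` which is integral over `ℤ`
satisfies `c ^ (p ^ N) = c` for some `N > 0`.
-/
import Mathlib
import Fermat.Agent.S27.Good.Defs
import Fermat.Agent.S27.Good.SepGen
import Fermat.Agent.S27.Genus.Dim
import Fermat.Agent.S27.Red.Defs

set_option autoImplicit false
set_option linter.unusedSectionVars false
set_option linter.unusedVariables false
set_option linter.style.haveILetI false

noncomputable section

namespace Fermat.Agent.S27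

open Polynomial AlgebraicCurve IsLocalRing IntermediateField Fermat.Agent.JT3

universe u v

/-! ### the seams -/

/-- **(GOOD)**: a place of good reduction of residue characteristic outside a given finite set. -/
def s27t_Good_stmt : Prop :=
  ∀ (K : Type u) (F : Type v) [Field K] [Field F] [Algebra K F] [IsAlgClosed K] [CharZero K]
    {x0 : F} (_ : rt_IsSepGen K x0) (S : Finset ℕ),
    ∃ (𝒪 : ValuationSubring K) (𝒱 : ValuationSubring F) (p : ℕ),
      p.Prime ∧ p ∉ S ∧ s27g_Good 𝒪 𝒱 p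

/-- **(RED) + (HENS)**: reduction is a bijection on `ℓ ^ n`-torsion, `ℓ ≠ p`. -/
def s27t_RedHens_stmt : Prop :=
  ∀ (K : Type u) (F : Type v) [Field K] [Field F] [Algebra K F] [IsAlgClosed K] [CharZero K]
    [IsCurveOver K F] (𝒪 : ValuationSubring K) (𝒱 : ValuationSubring F) (p : ℕ)
    (h : s27g_Good 𝒪 𝒱 p) (ℓ : ℕ) [Fact ℓ.Prime] (_ : ℓ ≠ p) (n : ℕ),
    letI := s27g_resAlgebra h.lies
    Nat.card (Pic0.torsion K F (ℓ ^ n)) =
      Nat.card (Pic0.torsion (ResidueField ↥𝒪) (ResidueField ↥𝒱) (ℓ ^ n))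

/-- **(Z)**: the count over the algebraic closure of a finite field (`= s27z_main`). -/
def s27t_Zeta_stmt : Prop :=
  ∀ (k : Type u) (E : Type v) [Field k] [Field E] [Algebra k E] [IsAlgClosed k]
    (p : ℕ) [Fact p.Prime] [CharP k p] {x : E} (_ : rt_IsSepGen k x)
    (_ : ∀ c : k, ∃ N, 0 < N ∧ c ^ (p ^ N) = c) (g : ℕ) (_ : s27r_IsGenus k E g)
    (ℓ : ℕ) [Fact ℓ.Prime] (_ : ℓ ≠ p) (n : ℕ),
    Nat.card (Pic0.torsion k E (ℓ ^ n)) = ℓ ^ (2 * g * n)

/-! ### glue: integral over `ℤ` in characteristic `p` ⟹ fixed by a power of Frobenius -/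

/-- an element of a field of characteristic `p` which is integral over `ℤ` is fixed by a power of
the Frobenius. -/
theorem s27t_frob_of_integral {k : Type*} [Field k] (p : ℕ) [hp : Fact p.Prime] [CharP k p]
    {c : k} (hc : ∃ q : ℤ[X], q.Monic ∧ aeval c q = 0) : ∃ N, 0 < N ∧ c ^ (p ^ N) = c := by
  classical
  obtain ⟨q, hq, hqc⟩ := hc
  -- `c` is integral over `ZMod p`
  letI : Algebra (ZMod p) k := ZMod.algebra k p
  have hint : IsIntegral (ZMod p) c := by
    refine ⟨q.map (Int.castRingHom (ZMod p)), hq.map _, ?_⟩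
    rw [eval₂_map]
    have h1 : (algebraMap (ZMod p) k).comp (Int.castRingHom (ZMod p)) = algebraMap ℤ k :=
      RingHom.ext_int _ _
    rw [h1]
    exact hqc
  -- the finite field `(ZMod p)⟮c⟯`
  haveI : FiniteDimensional (ZMod p) (ZMod p)⟮c⟯ := adjoin.finiteDimensional hint
  haveI : Finite (ZMod p)⟮c⟯ := Module.finite_of_finite (ZMod p)
  haveI : Fintype (ZMod p)⟮c⟯ := Fintype.ofFinite _
  obtain ⟨⟨N, hN⟩, -, hcard⟩ := FiniteField.card (ZMod p)⟮c⟯ p
  refine ⟨N, hN, ?_⟩
  have h2 := FiniteField.pow_card (⟨c, mem_adjoin_simple_self (ZMod p) c⟩ : (ZMod p)⟮c⟯)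
  rw [hcard] at h2
  have h3 := congrArg (Subtype.val : (ZMod p)⟮c⟯ → k) h2
  simpa using h3

/-! ### the wiring -/

/-- **THE TOP OF S27**: the frozen statement from the three seams. -/
theorem s27t_main (hGood : s27t_Good_stmt.{u, v}) (hRH : s27t_RedHens_stmt.{u, v})
    (hZ : s27t_Zeta_stmt.{u, v})
    (K : Type u) (F : Type v) [Field K] [Field F] [Algebra K F] [IsAlgClosed K] [CharZero K]
    [IsCurveOver K F] [Algebra.EssFiniteType K F]
    (ℓ : ℕ) [Fact ℓ.Prime] (n : ℕ) :
    Nat.card (Pic0.torsion K F (ℓ ^ n)) = ℓ ^ (2 * genusFF K F * n) := by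
  classical
  obtain ⟨x0, hx0⟩ := s27f_exists_sepGen K F
  obtain ⟨𝒪, 𝒱, p, hp, hpS, hG⟩ := hGood K F hx0 {ℓ}
  have hℓp : ℓ ≠ p := by
    rintro rfl
    exact hpS (Finset.mem_singleton_self _)
  haveI : Fact p.Prime := ⟨hp⟩
  letI := s27g_resAlgebra hG.lies
  haveI : CharP (ResidueField ↥𝒪) p := hG.charP
  haveI : IsAlgClosed (ResidueField ↥𝒪) := hG.algClosed
  obtain ⟨x, -, hxb, -⟩ := hG.sepGen
  obtain ⟨g, hgK, hgk⟩ := hG.rgenus
  have hgen : genusFF K F = g := s27gen_genusFF_eq' hx0 hgK.1 hgK.2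
  rw [hRH K F 𝒪 𝒱 p hG ℓ hℓp n, hgen]
  exact hZ (ResidueField ↥𝒪) (ResidueField ↥𝒱) p hxb
    (fun c => s27t_frob_of_integral p (hG.algebraic c)) g hgk ℓ hℓp n

end Fermat.Agent.S27
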