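/-
S27 / TOP (helper9): the seam `s27t_RedHens_stmt` of `Top/Seams.lean` from the landed cells of (RED)
and the two cells which are not landed yet, as `Prop`-valued statements in the EXACT shape in which
the TOP consumes them:

* `s27t_Dim_stmt`  = (RED) cell R2' (`s27r_hdim`, helper1);
* `s27t_Hens_stmt` = (HENS) (`s27h_hens`, helper18).

`s27t_redHens : s27t_Dim_stmt → s27t_Hens_stmt → s27t_RedHens_stmt`.

Cited: the adapter `s27t_red` / `s27t_good` (GOOD ⟹ the interface of (RED)), `s27r_red_of` (R5),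
`s27rp_redSub_poleDiv_le` (R4), `s27r_exists_const_mul_unit` (R1), `s27r6_pic0Hom` and its
surjectivity (R6), `s27h_card_torsion_of` (H11).
No rigidity and no divisibility of `Pic0` in characteristic zero is used.
-/
import Mathlib
import Fermat.Agent.S27.Top.Seams
import Fermat.Agent.S27.Top.Adapter
import Fermat.Agent.S27.Red.Main
import Fermat.Agent.S27.Red.PoleMain
import Fermat.Agent.S27.Red.Cor
import Fermat.Agent.S27.Red.OrthoBasis
import Fermat.Agent.S27.Hens.Torsion

set_option autoImplicit false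
set_option linter.style.haveILetI false

noncomputable section

namespace Fermat.Agent.S27

open AlgebraicCurve IsLocalRing IntermediateField Polynomial Fermat.Agent.JT3

universe u v u' v'

/-- **(RED) R2'** (`s27r_hdim`): reduction preserves the dimension of finite-dimensional spaces. -/
def s27t_Dim_stmt : Prop :=
  ∀ (K : Type u) (F : Type v) [Field K] [Field F] [Algebra K F]
    (k : Type u') (Fb : Type v') [Field k] [Field Fb] [Algebra k Fb]
    (R : s27r_Red K F k Fb) {x : F} (_ : s27r_Good R x), s27r_HDim R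

/-- **(HENS)** (`s27h_hens`): multiplication by `l` is bijective on the kernel of the reduction
homomorphism on `Pic0`, for `l` invertible in the residue field. -/
def s27t_Hens_stmt : Prop :=
  ∀ (K : Type u) (F : Type v) [Field K] [Field F] [Algebra K F] [IsAlgClosed K] [CharZero K]
    [IsCurveOver K F]
    (k : Type u') (Fb : Type v') [Field k] [Field Fb] [Algebra k Fb] [IsAlgClosed k]
    (R : s27r_Red K F k Fb) {x : F} (h : s27r_Good R x)
    (red : Place K F → Place k Fb) (_ : Function.Surjective red)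
    (_ : ∀ (f : F) (hf : f ∈ R.V), R.r ⟨f, hf⟩ ≠ 0 →
      Finsupp.mapDomain red (rt_div h.sepK f) = rt_div h.sepk (R.r ⟨f, hf⟩))
    (phi : Pic0 K F →+ Pic0 k Fb)
    (_ : ∀ (D : Divisor K F) (hD : D ∈ Divisor.degZero (K := K) (F := F)),
      ∃ hD' : Finsupp.mapDomain red D ∈ Divisor.degZero (K := k) (F := Fb),
        phi (Pic0.mk ⟨D, hD⟩) = Pic0.mk ⟨Finsupp.mapDomain red D, hD'⟩)
    (l : ℕ) (_ : (l : k) ≠ 0), Function.Bijective (fun c : phi.ker => l • c)

/-- **(RED) + (HENS) ⟹ the seam `s27t_RedHens_stmt`.** -/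
theorem s27t_redHens (hDIM : s27t_Dim_stmt.{u, v, u, v}) (hHENS : s27t_Hens_stmt.{u, v, u, v}) :
    s27t_RedHens_stmt.{u, v} := by
  intro K F _ _ _ _ _ _ 𝒪 𝒱 p hG ℓ hℓ hℓp n
  letI := s27g_resAlgebra hG.lies
  haveI := hG.charP
  haveI := hG.algClosed
  obtain ⟨x, h, -⟩ := s27t_good hG
  -- the reduction map on places
  obtain ⟨red, hsurj, hdiv⟩ :=
    s27r_red_of (s27t_red hG.lies) h (hDIM K F _ _ (s27t_red hG.lies) h)
      (s27rp_redSub_poleDiv_le (s27t_red hG.lies) h)
  -- the reduction homomorphism on `Pic0`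
  have hcu : ∀ f : F, f ≠ 0 → ∃ c : K, c ≠ 0 ∧ ∃ (u : F) (hu : u ∈ (s27t_red hG.lies).V),
      (s27t_red hG.lies).r ⟨u, hu⟩ ≠ 0 ∧ f = algebraMap K F c * u := by
    intro f hf
    obtain ⟨c, u, hc, hu, he⟩ := s27r_exists_const_mul_unit (s27t_red hG.lies) h hf
    exact ⟨c, hc, (u : F), u.2, ((s27t_red hG.lies).r_ne_zero_iff _).2 hu, he⟩
  set phi := s27r6_pic0Hom (s27t_red hG.lies) h red hdiv hcu with hphi
  have hphisurj : Function.Surjective phi :=
    s27r6_pic0Hom_surjective (s27t_red hG.lies) h red hdiv hcu hsurj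
  have hbij : Function.Bijective (fun c : phi.ker => ℓ • c) :=
    hHENS K F _ _ (s27t_red hG.lies) h red hsurj hdiv phi
      (fun D hD => ⟨(s27r6_degZeroHom h.sepK h.sepk red ⟨D, hD⟩).2, rfl⟩) ℓ
      (s27t_cast_ne_zero p hℓ.out hℓp)
  exact s27h_card_torsion_of phi hphisurj ℓ hbij n

end Fermat.Agent.S27
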